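import Fermat.Agent.FF2.Rat.RationalLift

/-!
# FF2 / RAT-B3 (level free): lifts of unramified residue points fixed by the *stabiliser* of the
residue point, and a rational section of the reduction of places

`A` a valuation subring of `ℚ̄` over `ℓ ∤ N`, `k` its residue field, `r = placeReductionModL h`.

* `resAction N A : D_A →* SemilinearAut k F̃_N`, `σ ↦ coeffAutC (decompResAut σ)`;
* `placeStab N A Q : Subgroup G_ℚ` : the `σ ∈ D_A` whose residual action fixes the place `Q` of
  `F̃_N`; `mem_placeStab`; `placeStab_le`;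
* `mem_placeStab_of_smul_eq` : `σ ∈ D_A` fixing a lift of `Q` lies in `placeStab Q` (so the lifts
  below are as rational as a lift can be);
* `exists_rational_lift_stab` : **(B3')** `exists_rational_lift` at `Γ = placeStab Q`, with all
  the fields of a disc coordinate (`FF2/Disc`'s `DiscCoord`) spelled out;
* `exists_rational_section` : **(SEC)** a section `lift` of `r` such that, at every `Q` which is
  not the reduction of a cusp and where `j̃ - j̃(Q)` has a simple zero, `lift Q` is fixed by
  `placeStab Q` and `j - c` (`c ∈ fixedRing A (placeStab Q)`) is a disc coordinate centred at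
  `lift Q`.
-/

set_option autoImplicit false
set_option linter.style.haveILetI false
set_option linter.unusedSectionVars false

noncomputable section
namespace Fermat.Agent.FF2.Rat

open AlgebraicCurve ModularCurve IsLocalRing Fermat.Agent.Red Fermat.Agent.X0 Fermat.Agent.Val
  Fermat.Agent.Val.GaloisModL Fermat.Agent.Good.CuspBound

set_option synthInstance.maxHeartbeats 400000
set_option maxHeartbeats 1000000

local notation "GQ" => (AlgebraicClosure ℚ ≃ₐ[ℚ] AlgebraicClosure ℚ)

variable (N : ℕ) [NeZero N] (A : ValuationSubring (AlgebraicClosure ℚ))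

/-- the residual action of the decomposition group of `A` on `F̃_N` -/
def resAction : A.decompositionSubgroup ℚ →*
    SemilinearAut (ResidueField A) (modularFunctionFieldFullC (ResidueField A) N) :=
  (coeffAutC (ResidueField A) N).comp
    (MulSemiringAction.toRingAut (A.decompositionSubgroup ℚ) (ResidueField A))

theorem resAction_apply (g : A.decompositionSubgroup ℚ) :
    resAction N A g = coeffAutC (ResidueField A) N (decompResAut A g) := rfl

/-- the stabiliser of a place of the special fibre: the elements of the decomposition group whose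
residual action fixes `Q` -/
def placeStab (Q : Place (ResidueField A) (modularFunctionFieldFullC (ResidueField A) N)) :
    Subgroup GQ :=
  ((MulAction.stabilizer
      (SemilinearAut (ResidueField A) (modularFunctionFieldFullC (ResidueField A) N)) Q).comap
    (resAction N A)).map (A.decompositionSubgroup ℚ).subtype

variable {N A}

theorem mem_placeStab {Q : Place (ResidueField A) (modularFunctionFieldFullC (ResidueField A) N)}
    {σ : GQ} : σ ∈ placeStab N A Q ↔ ∃ hσ : σ ∈ A.decompositionSubgroup ℚ,
      coeffAutC (ResidueField A) N (decompResAut A ⟨σ, hσ⟩) • Q = Q := by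
  constructor
  · rintro ⟨g, hg, rfl⟩
    exact ⟨g.2, hg⟩
  · rintro ⟨hσ, h⟩
    exact ⟨⟨σ, hσ⟩, h, rfl⟩

theorem placeStab_le (Q : Place (ResidueField A) (modularFunctionFieldFullC (ResidueField A) N)) :
    placeStab N A Q ≤ A.decompositionSubgroup ℚ := fun _ hσ => (mem_placeStab.1 hσ).1

/-- an element of the decomposition group fixing every element of a set `E ⊆ k` such that
`Aut(k/E)` fixes `Q`, lies in `placeStab Q` -/
theorem mem_placeStab_of_fixes
    {Q : Place (ResidueField A) (modularFunctionFieldFullC (ResidueField A) N)}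
    {E : Set (ResidueField A)}
    (hE : ∀ τ : ResidueField A ≃+* ResidueField A, (∀ e ∈ E, τ e = e) →
      coeffAutC (ResidueField A) N τ • Q = Q)
    {σ : GQ} (hσ : σ ∈ A.decompositionSubgroup ℚ)
    (hfix : ∀ e ∈ E, decompResAut A ⟨σ, hσ⟩ e = e) : σ ∈ placeStab N A Q :=
  mem_placeStab.2 ⟨hσ, hE _ hfix⟩

variable {ℓ : ℕ} [hℓ : Fact ℓ.Prime] (hℓN : ¬ ℓ ∣ N) (hA : A.LiesOverPrime ℓ)
  (h : ReductionInputsModL A N)

include hℓN hA in
/-- an element of the decomposition group fixing a lift of `Q` lies in `placeStab Q` -/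
theorem mem_placeStab_of_smul_eq {σ : GQ} (hσ : σ ∈ A.decompositionSubgroup ℚ)
    {P : Place Kb (Fb N)}
    (hP : arithmeticGalois (modularFunctionFieldFull N) σ • P = P) :
    σ ∈ placeStab N A (placeReductionModL h P) := by
  refine mem_placeStab.2 ⟨hσ, ?_⟩
  have h1 := r_decomposition_smul N hℓN A hA (isPlaceReductionModL_placeReductionModL h) hσ P
  rw [hP] at h1
  exact h1.symm

include hℓN hA in
/-- **(B3') Rational lift of an unramified point of the special fibre, level free.**
With `t = j - c`: all the fields of a disc coordinate centred at `P₀` for the chart of the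
complement of the cusps, `c` and `P₀` fixed by the stabiliser of the residue point `Q`. -/
theorem exists_rational_lift_stab
    (Q : Place (ResidueField A) (modularFunctionFieldFullC (ResidueField A) N))
    (hQZ : Q ∉ placeReductionModL h '' placesOverInfty Kb (jBar N))
    (a : ResidueField A)
    (ha : Q.ord (jC N A - algebraMap (ResidueField A) _ a) = 1) :
    ∃ (c : A) (P₀ : Place Kb (Fb N)),
      (c : Kb) ∈ fixedRing A (placeStab N A Q) ∧ residue A c = a ∧
      placeReductionModL h P₀ = Q ∧
      (∀ σ ∈ placeStab N A Q, arithmeticGalois (modularFunctionFieldFull N) σ • P₀ = P₀) ∧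
      (∀ σ ∈ placeStab N A Q, arithmeticGalois (modularFunctionFieldFull N) σ •
        (jBar N - algebraMap Kb (Fb N) (c : Kb)) = jBar N - algebraMap Kb (Fb N) (c : Kb)) ∧
      jBar N - algebraMap Kb (Fb N) (c : Kb) ∈
        (redSetupBar hℓN hA (isPlaceReductionModL_placeReductionModL h)).chart
          (placesOverInfty Kb (jBar N)) ∧
      (redSetupBar hℓN hA (isPlaceReductionModL_placeReductionModL h)).resF
          (jBar N - algebraMap Kb (Fb N) (c : Kb)) =
        jC N A - algebraMap (ResidueField A) _ a ∧
      (redSetupBar hℓN hA (isPlaceReductionModL_placeReductionModL h)).resF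
          (jBar N - algebraMap Kb (Fb N) (c : Kb)) ≠ 0 ∧
      P₀.ord (jBar N - algebraMap Kb (Fb N) (c : Kb)) = 1 ∧
      ∀ P' : Place Kb (Fb N), placeReductionModL h P' = Q → P' ≠ P₀ →
        P'.ord (jBar N - algebraMap Kb (Fb N) (c : Kb)) = 0 := by
  obtain ⟨c, P₀, hc, hca, hP₀, hfix, hord, hother⟩ :=
    exists_rational_lift hℓN hA h (placeStab N A Q) (placeStab_le Q) Q
      (fun σ hσ => (mem_placeStab.1 hσ).2) hQZ a ha
  obtain ⟨hchart, hres⟩ := jBar_sub_mem_chart hℓN hA h c
  rw [hca] at hres
  refine ⟨c, P₀, hc, hca, hP₀, hfix, fun σ hσ => ?_, hchart, hres, ?_, hord, hother⟩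
  · rw [smul_sub, arithmeticGalois_smul_jBar, arithmeticGalois_smul_algebraMap, hc.2 σ hσ]
  · rw [hres]
    intro h0
    rw [h0] at ha
    simp at ha

include hℓN hA in
/-- **(SEC) A rational section of the reduction of places.** -/
theorem exists_rational_section :
    ∃ lift : Place (ResidueField A) (modularFunctionFieldFullC (ResidueField A) N) →
        Place Kb (Fb N),
      (∀ Q, placeReductionModL h (lift Q) = Q) ∧
      ∀ Q, Q ∉ placeReductionModL h '' placesOverInfty Kb (jBar N) →
        ∀ a : ResidueField A, Q.ord (jC N A - algebraMap (ResidueField A) _ a) = 1 →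
          (∀ σ ∈ placeStab N A Q,
            arithmeticGalois (modularFunctionFieldFull N) σ • lift Q = lift Q) ∧
          ∃ c : A, (c : Kb) ∈ fixedRing A (placeStab N A Q) ∧ residue A c = a ∧
            (∀ σ ∈ placeStab N A Q, arithmeticGalois (modularFunctionFieldFull N) σ •
              (jBar N - algebraMap Kb (Fb N) (c : Kb)) =
                jBar N - algebraMap Kb (Fb N) (c : Kb)) ∧
            jBar N - algebraMap Kb (Fb N) (c : Kb) ∈
              (redSetupBar hℓN hA (isPlaceReductionModL_placeReductionModL h)).chart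
                (placesOverInfty Kb (jBar N)) ∧
            (redSetupBar hℓN hA (isPlaceReductionModL_placeReductionModL h)).resF
                (jBar N - algebraMap Kb (Fb N) (c : Kb)) =
              jC N A - algebraMap (ResidueField A) _ a ∧
            (redSetupBar hℓN hA (isPlaceReductionModL_placeReductionModL h)).resF
                (jBar N - algebraMap Kb (Fb N) (c : Kb)) ≠ 0 ∧
            (lift Q).ord (jBar N - algebraMap Kb (Fb N) (c : Kb)) = 1 ∧
            ∀ P' : Place Kb (Fb N), placeReductionModL h P' = Q → P' ≠ lift Q →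
              P'.ord (jBar N - algebraMap Kb (Fb N) (c : Kb)) = 0 := by
  classical
  set S := redSetupBar hℓN hA (isPlaceReductionModL_placeReductionModL h) with hS
  haveI := hasPrincipalDivisors_bar N
  have hsurj : Function.Surjective (placeReductionModL h) :=
    Fermat.Agent.Red.NormalForm.r_surjective S
  -- the good points
  let good : Place (ResidueField A) (modularFunctionFieldFullC (ResidueField A) N) → Prop :=
    fun Q => Q ∉ placeReductionModL h '' placesOverInfty Kb (jBar N) ∧
      ∃ a : ResidueField A, Q.ord (jC N A - algebraMap (ResidueField A) _ a) = 1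
  have hgood : ∀ Q, good Q → ∃ (a : ResidueField A) (c : A) (P₀ : Place Kb (Fb N)),
      Q.ord (jC N A - algebraMap (ResidueField A) _ a) = 1 ∧
      (c : Kb) ∈ fixedRing A (placeStab N A Q) ∧ residue A c = a ∧
      placeReductionModL h P₀ = Q ∧
      (∀ σ ∈ placeStab N A Q, arithmeticGalois (modularFunctionFieldFull N) σ • P₀ = P₀) ∧
      (∀ σ ∈ placeStab N A Q, arithmeticGalois (modularFunctionFieldFull N) σ •
        (jBar N - algebraMap Kb (Fb N) (c : Kb)) = jBar N - algebraMap Kb (Fb N) (c : Kb)) ∧
      jBar N - algebraMap Kb (Fb N) (c : Kb) ∈ S.chart (placesOverInfty Kb (jBar N)) ∧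
      S.resF (jBar N - algebraMap Kb (Fb N) (c : Kb)) =
        jC N A - algebraMap (ResidueField A) _ a ∧
      S.resF (jBar N - algebraMap Kb (Fb N) (c : Kb)) ≠ 0 ∧
      P₀.ord (jBar N - algebraMap Kb (Fb N) (c : Kb)) = 1 ∧
      ∀ P' : Place Kb (Fb N), placeReductionModL h P' = Q → P' ≠ P₀ →
        P'.ord (jBar N - algebraMap Kb (Fb N) (c : Kb)) = 0 := by
    rintro Q ⟨hQZ, a, ha⟩
    obtain ⟨c, P₀, h1⟩ := exists_rational_lift_stab hℓN hA h Q hQZ a ha
    exact ⟨a, c, P₀, ha, h1⟩
  have key : ∀ Q, ∃ P₀ : Place Kb (Fb N), placeReductionModL h P₀ = Q ∧ (good Q →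
      ∃ (a : ResidueField A) (c : A),
      Q.ord (jC N A - algebraMap (ResidueField A) _ a) = 1 ∧
      (c : Kb) ∈ fixedRing A (placeStab N A Q) ∧ residue A c = a ∧
      (∀ σ ∈ placeStab N A Q, arithmeticGalois (modularFunctionFieldFull N) σ • P₀ = P₀) ∧
      (∀ σ ∈ placeStab N A Q, arithmeticGalois (modularFunctionFieldFull N) σ •
        (jBar N - algebraMap Kb (Fb N) (c : Kb)) = jBar N - algebraMap Kb (Fb N) (c : Kb)) ∧
      jBar N - algebraMap Kb (Fb N) (c : Kb) ∈ S.chart (placesOverInfty Kb (jBar N)) ∧
      S.resF (jBar N - algebraMap Kb (Fb N) (c : Kb)) =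
        jC N A - algebraMap (ResidueField A) _ a ∧
      S.resF (jBar N - algebraMap Kb (Fb N) (c : Kb)) ≠ 0 ∧
      P₀.ord (jBar N - algebraMap Kb (Fb N) (c : Kb)) = 1 ∧
      ∀ P' : Place Kb (Fb N), placeReductionModL h P' = Q → P' ≠ P₀ →
        P'.ord (jBar N - algebraMap Kb (Fb N) (c : Kb)) = 0) := by
    intro Q
    by_cases hQ : good Q
    · obtain ⟨a, c, P₀, ha, hc, hca, hP₀, hrest⟩ := hgood Q hQ
      exact ⟨P₀, hP₀, fun _ => ⟨a, c, ha, hc, hca, hrest⟩⟩
    · obtain ⟨P, hP⟩ := hsurj Q
      exact ⟨P, hP, fun hg => absurd hg hQ⟩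
  choose lift hlift hprop using key
  refine ⟨lift, hlift, fun Q hQZ a ha => ?_⟩
  obtain ⟨a', c, ha', hc, hca, hfix, htfix, hchart, hres, hres0, hord, hother⟩ :=
    hprop Q ⟨hQZ, a, ha⟩
  have haa : a' = a := by
    have hv1 : IsValueAt Q (jC N A) a' :=
      isValueAt_iff.2 (Or.inr (by rw [ha']; exact one_pos))
    have hv2 : IsValueAt Q (jC N A) a := isValueAt_iff.2 (Or.inr (by rw [ha]; exact one_pos))
    exact hv1.unique hv2
  subst haa
  exact ⟨hfix, c, hc, hca, htfix, hchart, hres, hres0, hord, hother⟩

end Fermat.Agent.FF2.Rat
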