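import Fermat.Agent.FF2.Rat.DiscCoordRat
import Fermat.Agent.FF2.Branch.Inst

/-!
# FF2 / RAT: the one-stop literal — a finite bad set, a section of the reduction of places and
rational disc coordinates outside the bad set

Combination of `exists_section_discCoord_rational` with `Branch.exists_finset_good` (finiteness of
the branch locus of `j̃`, vendored from `FF2/Branch`).
-/

set_option autoImplicit false
set_option linter.style.haveILetI false
set_option linter.unusedSectionVars false

noncomputable section
namespace Fermat.Agent.FF2.Rat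

open AlgebraicCurve ModularCurve IsLocalRing Fermat.Agent.Red Fermat.Agent.X0 Fermat.Agent.Val
  Fermat.Agent.Val.GaloisModL Fermat.Agent.Good.CuspBound Fermat.Agent.FF2.Disc

set_option synthInstance.maxHeartbeats 400000
set_option maxHeartbeats 1000000

local notation "GQ" => (AlgebraicClosure ℚ ≃ₐ[ℚ] AlgebraicClosure ℚ)

variable {N : ℕ} [NeZero N] {A : ValuationSubring (AlgebraicClosure ℚ)}
variable {ℓ : ℕ} [hℓ : Fact ℓ.Prime] (hℓN : ¬ ℓ ∣ N) (hA : A.LiesOverPrime ℓ)
  (h : ReductionInputsModL A N)

include hℓN hA in
/-- **Finite bad set + rational section + rational disc coordinates.** -/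
theorem exists_good_section :
    ∃ (Bad : Finset (Place (ResidueField A) (modularFunctionFieldFullC (ResidueField A) N)))
      (lift : Place (ResidueField A) (modularFunctionFieldFullC (ResidueField A) N) →
        Place Kb (Fb N)),
      (∀ Q, placeReductionModL h (lift Q) = Q) ∧
      (∀ P ∈ placesOverInfty Kb (jBar N), placeReductionModL h P ∈ Bad) ∧
      ∀ Q, Q ∉ Bad →
        ∃ (a : ResidueField A) (c : A) (C : DiscCoord
            (redSetupBar hℓN hA (isPlaceReductionModL_placeReductionModL h))
            (placesOverInfty Kb (jBar N))),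
          C.P₀ = lift Q ∧
          C.t = jBar N - algebraMap Kb (Fb N) (c : Kb) ∧
          (c : Kb) ∈ fixedRing A (placeStab N A Q) ∧ residue A c = a ∧
          (redSetupBar hℓN hA (isPlaceReductionModL_placeReductionModL h)).resF C.t =
            jC N A - algebraMap (ResidueField A) _ a ∧
          ∀ σ ∈ placeStab N A Q,
            arithmeticGalois (modularFunctionFieldFull N) σ • C.P₀ = C.P₀ ∧
            arithmeticGalois (modularFunctionFieldFull N) σ • C.t = C.t := by
  obtain ⟨Bad, hBad⟩ := Fermat.Agent.FF2.Branch.exists_finset_good N hℓN A hA h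
  obtain ⟨lift, hlift, hprop⟩ := exists_section_discCoord_rational hℓN hA h
  refine ⟨Bad, lift, hlift, fun P hP => ?_, fun Q hQ => ?_⟩
  · by_contra hcon
    exact (hBad _ hcon).1 ⟨P, hP, rfl⟩
  · obtain ⟨hQZ, a, ha⟩ := hBad Q hQ
    exact ⟨a, hprop Q hQZ a ha⟩

end Fermat.Agent.FF2.Rat
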