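import Fermat.Agent.FF2.Rat.Teichmuller
import Fermat.Agent.Val.GaussGalois
import Fermat.Agent.Val.ResidueFieldA

/-!
# FF2 / RAT-B1: the ring of `Γ`-fixed integers and its residue field

`A` a valuation subring of `ℚ̄` over `ℓ`, `Γ` a subgroup of the decomposition group of `A`.

* `fixedRing A Γ` : the subring of `A` of `Γ`-fixed elements (for `Γ = D_A` this is main's
  `DecompRing.decompRing`; for `Γ ⊇ I_A` of finite index in `D_A` it is the henselian unramified
  base `Λ_Γ` of the S19 programme).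
* `exists_fixed_lift` : **Teichmüller** — every element of the residue field fixed by (the image
  of) `Γ` is the residue of a `Γ`-fixed element of `A`.  No hypothesis on `Γ` besides
  `Γ ≤ D_A`.
-/

set_option autoImplicit false

open IsLocalRing

namespace Fermat.Agent.FF2.Rat

local notation "Qb" => AlgebraicClosure ℚ
local notation "GQ" => (AlgebraicClosure ℚ ≃ₐ[ℚ] AlgebraicClosure ℚ)

/-- The subring of `A` of elements fixed by `Γ`. -/
def fixedRing (A : ValuationSubring Qb) (Γ : Subgroup GQ) : Subring Qb where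
  carrier := {z | z ∈ A ∧ ∀ σ ∈ Γ, σ z = z}
  mul_mem' {a b} ha hb :=
    ⟨A.mul_mem _ _ ha.1 hb.1, fun σ hσ => by rw [map_mul, ha.2 σ hσ, hb.2 σ hσ]⟩
  one_mem' := ⟨A.one_mem, fun σ _ => map_one σ⟩
  add_mem' {a b} ha hb :=
    ⟨A.add_mem _ _ ha.1 hb.1, fun σ hσ => by rw [map_add, ha.2 σ hσ, hb.2 σ hσ]⟩
  zero_mem' := ⟨A.zero_mem, fun σ _ => map_zero σ⟩
  neg_mem' {a} ha := ⟨A.neg_mem _ ha.1, fun σ hσ => by rw [map_neg, ha.2 σ hσ]⟩

theorem mem_fixedRing {A : ValuationSubring Qb} {Γ : Subgroup GQ} {z : Qb} :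
    z ∈ fixedRing A Γ ↔ z ∈ A ∧ ∀ σ ∈ Γ, σ z = z := Iff.rfl

theorem fixedRing_le (A : ValuationSubring Qb) (Γ : Subgroup GQ) :
    fixedRing A Γ ≤ A.toSubring := fun _ hz => hz.1

theorem fixedRing_anti (A : ValuationSubring Qb) {Γ Γ' : Subgroup GQ} (h : Γ ≤ Γ') :
    fixedRing A Γ' ≤ fixedRing A Γ := fun _ hz => ⟨hz.1, fun σ hσ => hz.2 σ (h hσ)⟩

/-- A nonzero element of a field algebraic over `ZMod ℓ` is a root of unity of order prime to
`ℓ`. -/
theorem exists_pow_eq_one_of_isAlgebraic {k : Type*} [Field k] {ℓ : ℕ} [Fact ℓ.Prime]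
    [CharP k ℓ] [Algebra (ZMod ℓ) k] {x : k} (hx : IsAlgebraic (ZMod ℓ) x) (hx0 : x ≠ 0) :
    ∃ m : ℕ, (m : k) ≠ 0 ∧ x ^ m = 1 := by
  classical
  haveI hfd : FiniteDimensional (ZMod ℓ) (IntermediateField.adjoin (ZMod ℓ) {x}) :=
    IntermediateField.adjoin.finiteDimensional hx.isIntegral
  haveI : Finite (IntermediateField.adjoin (ZMod ℓ) {x}) := Module.finite_of_finite (ZMod ℓ)
  haveI : Fintype (IntermediateField.adjoin (ZMod ℓ) {x}) := Fintype.ofFinite _
  haveI hch : CharP (IntermediateField.adjoin (ZMod ℓ) {x}) ℓ := by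
    rw [← Algebra.charP_iff (ZMod ℓ) (IntermediateField.adjoin (ZMod ℓ) {x}) ℓ]
    infer_instance
  obtain ⟨n, -, hcard⟩ := FiniteField.card (IntermediateField.adjoin (ZMod ℓ) {x}) ℓ
  set x' : IntermediateField.adjoin (ZMod ℓ) {x} :=
    ⟨x, IntermediateField.mem_adjoin_simple_self _ x⟩ with hx'
  have hx'0 : x' ≠ 0 := fun h => hx0 (congrArg Subtype.val h)
  have h1 := FiniteField.pow_card_sub_one_eq_one x' hx'0
  refine ⟨Fintype.card (IntermediateField.adjoin (ZMod ℓ) {x}) - 1, ?_, ?_⟩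
  · have hpos : 1 ≤ Fintype.card (IntermediateField.adjoin (ZMod ℓ) {x}) := Fintype.card_pos
    rw [Nat.cast_sub hpos, Nat.cast_one]
    have hℓ : (Fintype.card (IntermediateField.adjoin (ZMod ℓ) {x}) : k) = 0 := by
      have hdvd : ℓ ∣ Fintype.card (IntermediateField.adjoin (ZMod ℓ) {x}) := by
        rw [hcard]
        exact dvd_pow_self ℓ n.ne_zero
      exact (CharP.cast_eq_zero_iff k ℓ _).2 hdvd
    rw [hℓ, zero_sub]
    exact neg_ne_zero.2 one_ne_zero
  · have := congrArg (Subtype.val : IntermediateField.adjoin (ZMod ℓ) {x} → k) h1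
    simpa using this

section Lift

variable (A : ValuationSubring Qb) {ℓ : ℕ} [hℓ : Fact ℓ.Prime] (hA : A.LiesOverPrime ℓ)
  (Γ : Subgroup GQ) (hΓ : Γ ≤ A.decompositionSubgroup ℚ)

include hA in
/-- **Teichmüller lift with rationality**: a `Γ`-fixed element of the residue field of `A` is
the residue of a `Γ`-fixed element of `A`. -/
theorem exists_fixed_lift (x : ResidueField A)
    (hx : ∀ σ (hσ : σ ∈ Γ), Fermat.Agent.Val.decompResAut A ⟨σ, hΓ hσ⟩ x = x) :
    ∃ c : A, (c : Qb) ∈ fixedRing A Γ ∧ residue A c = x := by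
  rcases eq_or_ne x 0 with rfl | hx0
  · exact ⟨0, ⟨A.zero_mem, fun σ _ => map_zero σ⟩, map_zero _⟩
  haveI : CharP (ResidueField A) ℓ := Fermat.Agent.Val.charP_residueField_of_liesOverPrime A hA
  letI : Algebra (ZMod ℓ) (ResidueField A) := ZMod.algebra (ResidueField A) ℓ
  have halg : Algebra.IsAlgebraic (ZMod ℓ) (ResidueField A) :=
    Fermat.Agent.Val.isAlgebraic_residueField_algebraicClosure_rat A
  obtain ⟨m, hm, hxm⟩ := exists_pow_eq_one_of_isAlgebraic (halg.isAlgebraic x) hx0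
  obtain ⟨ζ, hζ, hζx⟩ := exists_rootOfUnity_lift A hm x hxm
  refine ⟨ζ, ⟨ζ.2, fun σ hσ => ?_⟩, hζx⟩
  set g : A.decompositionSubgroup ℚ := ⟨σ, hΓ hσ⟩ with hg
  have h1 : (g • ζ) ^ m = 1 := by rw [← smul_pow', hζ, smul_one]
  have h2 : residue A (g • ζ) = residue A ζ := by
    rw [← Fermat.Agent.Val.decompResAut_residue, hζx, hx σ hσ]
  have h3 := eq_of_residue_eq A hm h1 hζ h2
  have := congrArg (Subtype.val : A → Qb) h3
  rwa [Fermat.Agent.Val.coe_decomp_smul] at this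

end Lift

end Fermat.Agent.FF2.Rat
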