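import Fermat.Agent.FF2.Rat.SimpleZero
import Fermat.Agent.FF2.Rat.FixedRing
import Fermat.Agent.Val.GaloisModLFinal
import Fermat.Agent.Hecke.RedInputs
import Fermat.Agent.Good.CuspBound

/-!
# FF2 / RAT-B3: rational lifts of unramified points of the special fibre of `X₀(N)`

`A` a valuation subring of `ℚ̄` over `ℓ ∤ N`, `k` its residue field, `h : ReductionInputsModL A N`
(unconditional on main), `r = placeReductionModL h`, `S = redSetupBar hℓN hA hr`.
`Γ` a subgroup of the decomposition group of `A`.

* `arithmeticGalois_smul_jBar` : `j` is fixed by the arithmetic Galois action.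
* `jBar_mem_O`, `resF_jBar` : `j` is Gauss integral with residue `j̃`.
* `exists_rational_lift` : **(B3)** for a place `Q` of `F̃_N`, fixed by (the image of) `Γ`, not the
  reduction of a pole of `j`, with `ord_Q (j̃ - a) = 1`: there are `c ∈ Λ_Γ = fixedRing A Γ` lifting
  `a` and a `Γ`-fixed place `P₀` of `F̄_N` over `Q` such that `t = j - c` (a `Γ`-fixed element of
  the chart ring of the complement of the cusps) has a simple zero at `P₀`, residue `j̃ - a`, and no
  other zero in the residue disc of `Q`.
-/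

set_option autoImplicit false
set_option linter.style.haveILetI false
set_option linter.unusedSectionVars false

noncomputable section
namespace Fermat.Agent.FF2.Rat

open AlgebraicCurve ModularCurve IsLocalRing Fermat.Agent.Red Fermat.Agent.X0 Fermat.Agent.Val
  Fermat.Agent.Val.GaloisModL Fermat.Agent.Good.CuspBound

set_option synthInstance.maxHeartbeats 400000
set_option maxHeartbeats 1000000

local notation "GQ" => (AlgebraicClosure ℚ ≃ₐ[ℚ] AlgebraicClosure ℚ)

variable (N : ℕ) [NeZero N] {ℓ : ℕ} [hℓ : Fact ℓ.Prime] (hℓN : ¬ ℓ ∣ N)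
variable (A : ValuationSubring (AlgebraicClosure ℚ)) (hA : A.LiesOverPrime ℓ)

/-- `j` is fixed by the arithmetic Galois action. -/
theorem arithmeticGalois_smul_jBar (σ : GQ) :
    arithmeticGalois (modularFunctionFieldFull N) σ • jBar N = jBar N := by
  apply Subtype.ext
  rw [coe_arithmeticGalois_smul, coe_jBar]
  exact coeffMap_coeffEmb σ jq

/-- constants are moved by the base automorphism -/
theorem arithmeticGalois_smul_algebraMap (σ : GQ) (c : AlgebraicClosure ℚ) :
    arithmeticGalois (modularFunctionFieldFull N) σ • algebraMap (AlgebraicClosure ℚ) (Fb N) c =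
      algebraMap (AlgebraicClosure ℚ) (Fb N) (σ c) :=
  SemilinearAut.smul_algebraMap _ c

variable {N A}

/-- `j` is Gauss integral with residue `j̃`. -/
theorem exists_jBar_mem_O :
    ∃ hmem : jBar N ∈ (constRedBar N hℓN A hA).O,
      (constRedBar N hℓN A hA).res ⟨jBar N, hmem⟩ = jC N A := by
  have e1 : coeffMap A.subtype (jqModC A) = ((jBar N : Fb N) : LaurentSeries Kb) := by
    rw [coe_jBar_eq, coeffMap_jqModC]
  have hy : coeffMap A.subtype (jqModC A) ∈ modularFunctionFieldBar N := by
    rw [e1]; exact (jBar N).2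
  have hyk : coeffMap (residue A) (jqModC A) ∈ modularFunctionFieldFullC (ResidueField A) N := by
    rw [coeffMap_jqModC]; exact jqModC_mem_full (ResidueField A) N
  obtain ⟨hmem, hres⟩ := Fermat.Agent.Hecke.constRedBar_bridge N hℓN A hA (jqModC A) hy hyk
  have hj : (⟨coeffMap A.subtype (jqModC A), hy⟩ : Fb N) = jBar N := Subtype.ext e1
  refine ⟨hj ▸ hmem, ?_⟩
  have h2 : (⟨coeffMap (residue A) (jqModC A), hyk⟩ :
      modularFunctionFieldFullC (ResidueField A) N) = jC N A := by
    apply Subtype.ext
    show coeffMap (residue A) (jqModC A) = jqModC (ResidueField A)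
    exact coeffMap_jqModC _
  rw [← h2, ← hres]
  congr 1
  exact Subtype.ext hj.symm

/-- `j̃` is fixed by the coefficientwise action of `Aut(k)`. -/
theorem coeffAutC_smul_jC (τ : ResidueField A ≃+* ResidueField A) :
    coeffAutC (ResidueField A) N τ • jC N A = jC N A := by
  apply Subtype.ext
  rw [coe_coeffAutC_smul]
  exact coeffMap_jqModC _

section Lift

variable (h : ReductionInputsModL A N) (Γ : Subgroup GQ) (hΓ : Γ ≤ A.decompositionSubgroup ℚ)

/-- `t = j - c`, `c ∈ A`, belongs to the chart ring of the complement of the cusps, with residue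
`j̃ - π c`. -/
theorem jBar_sub_mem_chart (c : A) :
    jBar N - algebraMap Kb (Fb N) (c : Kb) ∈
        (redSetupBar hℓN hA (isPlaceReductionModL_placeReductionModL h)).chart
          (placesOverInfty Kb (jBar N)) ∧
      (redSetupBar hℓN hA (isPlaceReductionModL_placeReductionModL h)).resF
          (jBar N - algebraMap Kb (Fb N) (c : Kb)) =
        jC N A - algebraMap (ResidueField A) _ (residue A c) := by
  set S := redSetupBar hℓN hA (isPlaceReductionModL_placeReductionModL h) with hS
  obtain ⟨hmem, hres⟩ := exists_jBar_mem_O (N := N) hℓN (A := A) hA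
  have hjO : jBar N ∈ S.O := hmem
  have hcO : algebraMap Kb (Fb N) (c : Kb) ∈ S.O := S.algebraMap_mem c.2
  refine ⟨⟨sub_mem hjO hcO, ?_⟩, ?_⟩
  · refine Subalgebra.sub_mem _ ?_ (Subalgebra.algebraMap_mem _ _)
    rw [mem_regularRing_iff_ord]
    intro P hP
    right
    rw [mem_placesOverInfty, not_lt] at hP
    exact hP
  · rw [S.resF_sub hjO hcO, S.resF_algebraMap c.2, S.resF_of_mem hjO]
    congr 1

include hℓN hA in
/-- **(B3) Rational lift of an unramified point of the special fibre.** -/
theorem exists_rational_lift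
    (Q : Place (ResidueField A) (modularFunctionFieldFullC (ResidueField A) N))
    (hQfix : ∀ σ (hσ : σ ∈ Γ),
      coeffAutC (ResidueField A) N (decompResAut A ⟨σ, hΓ hσ⟩) • Q = Q)
    (hQZ : Q ∉ placeReductionModL h '' placesOverInfty Kb (jBar N))
    (a : ResidueField A)
    (ha : Q.ord (jC N A - algebraMap (ResidueField A) _ a) = 1) :
    ∃ (c : A) (P₀ : Place Kb (Fb N)),
      (c : Kb) ∈ fixedRing A Γ ∧ residue A c = a ∧ placeReductionModL h P₀ = Q ∧
      (∀ σ ∈ Γ, arithmeticGalois (modularFunctionFieldFull N) σ • P₀ = P₀) ∧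
      P₀.ord (jBar N - algebraMap Kb (Fb N) (c : Kb)) = 1 ∧
      ∀ P' : Place Kb (Fb N), placeReductionModL h P' = Q → P' ≠ P₀ →
        P'.ord (jBar N - algebraMap Kb (Fb N) (c : Kb)) = 0 := by
  have hr := isPlaceReductionModL_placeReductionModL h
  set S := redSetupBar hℓN hA hr with hS
  have hSr : S.r = placeReductionModL h := rfl
  -- the value `a` of `j̃` at `Q` is fixed
  have hval : IsValueAt Q (jC N A) a := isValueAt_iff.2 (Or.inr (by rw [ha]; exact one_pos))
  have hafix : ∀ σ (hσ : σ ∈ Γ), decompResAut A ⟨σ, hΓ hσ⟩ a = a := by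
    intro σ hσ
    have h1 := (isValueAt_smul_iff (coeffAutC (ResidueField A) N (decompResAut A ⟨σ, hΓ hσ⟩))
      Q (jC N A) a).2 hval
    rw [hQfix σ hσ, coeffAutC_smul_jC, baseAut_coeffAutC] at h1
    exact h1.unique hval
  obtain ⟨c, hcfix, hca⟩ := exists_fixed_lift A hA Γ hΓ a hafix
  obtain ⟨hchart, hresu⟩ := jBar_sub_mem_chart hℓN hA h c
  rw [hca] at hresu
  obtain ⟨P₀, hP₀, h1, hothers⟩ := exists_simpleZero S (riemannPkg_bar N) hchart
    (Q := Q) hQZ (by rw [hresu]; exact ha)
  refine ⟨c, P₀, hcfix, hca, hP₀, fun σ hσ => ?_, h1, hothers⟩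
  have hσD := hΓ hσ
  refine smul_eq_of_simpleZero S (arithmeticGalois (modularFunctionFieldFull N) σ)
    (coeffAutC (ResidueField A) N (decompResAut A ⟨σ, hσD⟩))
    (fun P => r_decomposition_smul N hℓN A hA hr hσD P) ?_ (hQfix σ hσ) hP₀
    (by rw [h1]; exact one_ne_zero) hothers
  rw [smul_sub, arithmeticGalois_smul_jBar, arithmeticGalois_smul_algebraMap, hcfix.2 σ hσ]

end Lift

end Fermat.Agent.FF2.Rat
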