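import Fermat.Agent.FF2.Rat.OrthoRational
import Fermat.Agent.FF2.Rat.RationalLift

/-!
# FF2 / RAT-C (instance): `G_ℚ`-fixed reduced bases of Galois-stable spaces of functions on `X₀(N)`

`A` a valuation subring of `ℚ̄` over `ℓ ∤ N`, `S = redSetupBar hℓN hA hr` (any place reduction `r`).

* `exists_rat_multiple` : every nonzero polynomial over an algebraic extension divides a nonzero
  polynomial with coefficients in the base field.
* `exists_fixed_reducedBasis_bar` : every finite-dimensional `ℚ̄`-subspace `V` of `F̄_N` which is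
  stable under the arithmetic action of `G_ℚ` has a family `z : Fin (dim V) → F̄_N` of elements of
  `V`, **fixed by all of `G_ℚ`**, Gauss integral, whose reductions are `k`-linearly independent
  (so `z` is a reduced basis of `V` in the sense of main's `Red.IsReducedBasis`).
-/

set_option autoImplicit false
set_option linter.style.haveILetI false
set_option linter.unusedSectionVars false

noncomputable section
namespace Fermat.Agent.FF2.Rat

open AlgebraicCurve ModularCurve IsLocalRing Fermat.Agent.Red Fermat.Agent.X0 Fermat.Agent.Val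
  Polynomial Module

section Multiple

attribute [local instance] Polynomial.algebra

/-- every nonzero polynomial over an algebraic extension divides a nonzero polynomial with
coefficients in the base field -/
theorem exists_rat_multiple {K L : Type*} [Field K] [Field L] [Algebra K L]
    [Algebra.IsAlgebraic K L] (Q : L[X]) (hQ : Q ≠ 0) :
    ∃ Q0 : K[X], Q0 ≠ 0 ∧ Q ∣ Q0.map (algebraMap K L) := by
  have hint : IsIntegral K[X] Q :=
    Polynomial.isIntegral_iff_isIntegral_coeff.2 fun n =>
      (Algebra.IsAlgebraic.isAlgebraic (R := K) (Q.coeff n)).isIntegral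
  obtain ⟨r, hr0, hr⟩ := hint.isAlgebraic.exists_nonzero_dvd (mem_nonZeroDivisors_of_ne_zero hQ)
  exact ⟨r, hr0, by rwa [Polynomial.algebraMap_def, Polynomial.coe_mapRingHom] at hr⟩

end Multiple

set_option synthInstance.maxHeartbeats 400000
set_option maxHeartbeats 1000000

local notation "GQ" => (AlgebraicClosure ℚ ≃ₐ[ℚ] AlgebraicClosure ℚ)

variable {N : ℕ} [NeZero N] {ℓ : ℕ} [hℓ : Fact ℓ.Prime] (hℓN : ¬ ℓ ∣ N)
variable {A : ValuationSubring (AlgebraicClosure ℚ)} (hA : A.LiesOverPrime ℓ)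

/-- integral series which are products of the `j(q^d)` have rational coefficients -/
theorem coeffMap_aIota_of_mem_closure (σ : GQ) {m : LaurentSeries A}
    (hm : m ∈ Submonoid.closure (jGensA A N)) :
    coeffMap ((σ : Kb ≃ₐ[ℚ] Kb) : Kb →+* Kb) (aIota A m) = aIota A m := by
  induction hm using Submonoid.closure_induction with
  | mem x hx =>
    obtain ⟨d, hd, -, rfl⟩ := hx
    show coeffMap _ (coeffMap A.subtype (jqNModC A d)) = coeffMap A.subtype (jqNModC A d)
    rw [coeffMap_subtype_jqNModC]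
    exact coeffMap_coeffEmb σ _
  | one => rw [map_one, map_one]
  | mul x y _ _ hx hy => rw [map_mul, map_mul, hx, hy]

/-- the coordinate function `x = j` of the orthonormal data is `G_ℚ`-fixed -/
theorem arithmeticGalois_smul_xF (σ : GQ) :
    arithmeticGalois (modularFunctionFieldFull N) σ • (orthoDataQbar A N hA hℓN).xF =
      (orthoDataQbar A N hA hℓN).xF := by
  apply Subtype.ext
  rw [coe_arithmeticGalois_smul]
  show coeffMap _ (aIota A (orthoDataQbar A N hA hℓN).x) = aIota A (orthoDataQbar A N hA hℓN).x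
  rw [orthoDataQbar_x]
  show coeffMap _ (coeffMap A.subtype (jqModC A)) = coeffMap A.subtype (jqModC A)
  rw [coeffMap_subtype_jqModC]
  exact coeffMap_coeffEmb σ _

/-- the monomials `m_i` of the orthonormal data are `G_ℚ`-fixed -/
theorem arithmeticGalois_smul_mF (σ : GQ) (i : Fin (dedekindPsi N)) :
    arithmeticGalois (modularFunctionFieldFull N) σ • (orthoDataQbar A N hA hℓN).mF i =
      (orthoDataQbar A N hA hℓN).mF i := by
  apply Subtype.ext
  rw [coe_arithmeticGalois_smul]
  exact coeffMap_aIota_of_mem_closure σ (orthoDataQbar_m_mem A N hA hℓN i)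

/-- **rational normalised denominators**: every nonzero `Q ∈ ℚ̄[X]` divides a polynomial `Q'` with
rational coefficients such that `Q'(j)` is a unit of the Gauss valuation ring. -/
theorem exists_rat_unit_multiple (Q : Kb[X]) (hQ : Q ≠ 0) :
    ∃ Q' : Kb[X], Q' ≠ 0 ∧ Q ∣ Q' ∧
      (∀ σ : GQ, Q'.map ((σ : Kb ≃ₐ[ℚ] Kb) : Kb →+* Kb) = Q') ∧
      aeval (orthoDataQbar A N hA hℓN).xF Q' ≠ 0 ∧
      aeval (orthoDataQbar A N hA hℓN).xF Q' ∈ (orthoDataQbar A N hA hℓN).valSubring ∧
      (aeval (orthoDataQbar A N hA hℓN).xF Q')⁻¹ ∈ (orthoDataQbar A N hA hℓN).valSubring := by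
  set D := orthoDataQbar A N hA hℓN with hD
  haveI : Algebra.IsAlgebraic ℚ Kb := Fermat.Agent.Val.algebraIsAlgebraic_rat_algebraicClosure
  obtain ⟨Q0, hQ00, hdvd⟩ := exists_rat_multiple (K := ℚ) Q hQ
  set Q1 : Kb[X] := Q0.map (algebraMap ℚ Kb) with hQ1
  have hQ10 : Q1 ≠ 0 := (Polynomial.map_ne_zero_iff (algebraMap ℚ Kb).injective).2 hQ00
  obtain ⟨e, Q'', ⟨j, hj⟩, -, -, -, -, hcont⟩ := D.hasContent_aeval hQ10
  have he0 : e ≠ 0 := hcont.1
  have herat : e = algebraMap ℚ Kb (Q0.coeff j) := by rw [← hj, hQ1, Polynomial.coeff_map]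
  have hefix : ∀ σ : GQ, σ e = e := fun σ => by rw [herat]; exact σ.commutes _
  have hQ1fix : ∀ σ : GQ, Q1.map ((σ : Kb ≃ₐ[ℚ] Kb) : Kb →+* Kb) = Q1 := by
    intro σ
    rw [hQ1, Polynomial.map_map]
    congr 1
    exact RingHom.ext fun c => σ.commutes c
  have hae : aeval D.xF (C e⁻¹ * Q1) = e⁻¹ • aeval D.xF Q1 := by
    rw [map_mul, aeval_C, Algebra.smul_def]
  have hcoe : ((e⁻¹ • aeval D.xF Q1 : modularFunctionFieldBar N) : LaurentSeries Kb) =
      HahnSeries.C e⁻¹ * aeval (aIota A D.x) Q1 := by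
    rw [Algebra.smul_def, MulMemClass.coe_mul, D.coe_aeval_xF]
    congr 1
    show algebraMap Kb (LaurentSeries Kb) e⁻¹ = _
    rw [algebraMap_laurentSeries_eq_C]
  have hc1 : HasContent A (residue A)
      ((e⁻¹ • aeval D.xF Q1 : modularFunctionFieldBar N) : LaurentSeries Kb) 1 := by
    rw [hcoe]
    have := hcont.C_mul (inv_ne_zero he0)
    rwa [inv_mul_cancel₀ he0] at this
  refine ⟨C e⁻¹ * Q1, mul_ne_zero (C_ne_zero.2 (inv_ne_zero he0)) hQ10,
    Dvd.dvd.mul_left hdvd _, ?_, ?_, ?_, ?_⟩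
  · intro σ
    rw [Polynomial.map_mul, Polynomial.map_C, hQ1fix σ]
    congr 2
    show σ e⁻¹ = e⁻¹
    rw [map_inv₀, hefix σ]
  · rw [hae]
    intro h
    apply hc1.ne_zero
    rw [h]; rfl
  · rw [hae]
    exact hc1.mem_gaussRingA_of_mem A.one_mem
  · rw [hae]
    show (((e⁻¹ • aeval D.xF Q1 : modularFunctionFieldBar N)⁻¹ : modularFunctionFieldBar N) :
      LaurentSeries Kb) ∈ gaussRingA A (residue A)
    have := hc1.inv
    rw [inv_one] at this
    exact this.mem_gaussRingA_of_mem A.one_mem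

/-- **(RAT-C) `G_ℚ`-fixed reduced bases.** Every finite-dimensional subspace of `F̄_N` stable under
the arithmetic Galois action has a reduced basis of `G_ℚ`-fixed functions. -/
theorem exists_fixed_reducedBasis_bar
    {r : Place Kb (Fb N) → Place (ResidueField A) (modularFunctionFieldFullC (ResidueField A) N)}
    (hr : IsPlaceReductionModL A N r)
    (V : Submodule Kb (Fb N)) [FiniteDimensional Kb V]
    (hV : ∀ σ : GQ, ∀ f ∈ V, arithmeticGalois (modularFunctionFieldFull N) σ • f ∈ V) :
    ∃ z : Fin (finrank Kb V) → Fb N, (∀ i, z i ∈ V) ∧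
      (∀ i, ∀ σ : GQ, arithmeticGalois (modularFunctionFieldFull N) σ • z i = z i) ∧
      (∀ i, z i ∈ (redSetupBar hℓN hA hr).O) ∧
      LinearIndependent (ResidueField A) fun i => (redSetupBar hℓN hA hr).resF (z i) := by
  set D := orthoDataQbar A N hA hℓN with hD
  obtain ⟨z, hzV, hzfix, hzO, hzli⟩ := exists_fixed_reducedBasis_of_ortho
    (redSetupBar hℓN hA hr) (residue_surjective' A)
    (Set.range (arithmeticGalois (L := Kb) (modularFunctionFieldFull N))) D.xF D.mF
    (by rintro _ ⟨σ, rfl⟩; exact arithmeticGalois_smul_xF hℓN hA σ)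
    (by rintro _ ⟨σ, rfl⟩ i; exact arithmeticGalois_smul_mF hℓN hA σ i)
    (D.family_mem_iff (residue_hπ A)) (D.res_family_eq_zero_iff (residue_hπ A)) D.exists_rep
    (fun Q hQ => by
      obtain ⟨Q', hQ'0, hdvd, hfix, h1, h2, h3⟩ := exists_rat_unit_multiple hℓN hA Q hQ
      refine ⟨Q', hQ'0, hdvd, ?_, h1, h2, h3⟩
      rintro _ ⟨σ, rfl⟩
      exact hfix σ)
    V (by rintro _ ⟨σ, rfl⟩ f hf; exact hV σ f hf)
  exact ⟨z, hzV, fun i σ => hzfix i _ ⟨σ, rfl⟩, hzO, hzli⟩

/-- **(RAT-C), full shape of main's `RedSetup.exists_reducedBasis`** plus `G_ℚ`-fixedness. -/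
theorem exists_fixed_reducedBasis_bar'
    {r : Place Kb (Fb N) → Place (ResidueField A) (modularFunctionFieldFullC (ResidueField A) N)}
    (hr : IsPlaceReductionModL A N r)
    (V : Submodule Kb (Fb N)) [FiniteDimensional Kb V]
    (hV : ∀ σ : GQ, ∀ f ∈ V, arithmeticGalois (modularFunctionFieldFull N) σ • f ∈ V) :
    ∃ z : Fin (finrank Kb V) → Fb N, (∀ i, z i ∈ V) ∧
      (∀ i, ∀ σ : GQ, arithmeticGalois (modularFunctionFieldFull N) σ • z i = z i) ∧
      (∀ i, z i ∈ (redSetupBar hℓN hA hr).O) ∧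
      (LinearIndependent (ResidueField A) fun i => (redSetupBar hℓN hA hr).resF (z i)) ∧
      LinearIndependent Kb z ∧ Submodule.span Kb (Set.range z) = V := by
  obtain ⟨z, hzV, hzfix, hzO, hzli⟩ := exists_fixed_reducedBasis_bar hℓN hA hr V hV
  have hli : LinearIndependent Kb z :=
    (redSetupBar hℓN hA hr).linearIndependent_of_resF z hzO hzli
  refine ⟨z, hzV, hzfix, hzO, hzli, hli, ?_⟩
  have hle : Submodule.span Kb (Set.range z) ≤ V :=
    Submodule.span_le.2 (by rintro _ ⟨i, rfl⟩; exact hzV i)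
  refine Submodule.eq_of_le_of_finrank_eq hle ?_
  rw [finrank_span_eq_card hli, Fintype.card_fin]

section RR

variable {K F : Type*} [Field K] [Field F] [Algebra K F]

/-- `L(D)` is stable under a semilinear automorphism fixing `D`. -/
theorem smul_mem_riemannRochSpace (g : SemilinearAut K F) {D : Divisor K F} (hD : g • D = D)
    {f : F} (hf : f ∈ riemannRochSpace D) : g • f ∈ riemannRochSpace D := by
  rw [mem_riemannRochSpace_iff] at hf ⊢
  intro v
  rcases hf (g⁻¹ • v) with h0 | h
  · left; rw [h0, smul_zero]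
  · right
    have h1 : (g • (g⁻¹ • v)).ord (g • f) = (g⁻¹ • v).ord f := SemilinearAut.ord_smul g _ f
    rw [smul_inv_smul] at h1
    have h2 : D v = D (g⁻¹ • v) := by
      conv_lhs => rw [← hD]
      exact SemilinearAut.divisor_smul_apply g D v
    rw [h1, h2]
    exact h

end RR

/-- **(RAT-C) for Riemann–Roch spaces**: `L(D)` of a `G_ℚ`-stable divisor `D` of `X₀(N)` has a
reduced basis of `G_ℚ`-fixed functions. -/
theorem exists_fixed_reducedBasis_riemannRoch
    {r : Place Kb (Fb N) → Place (ResidueField A) (modularFunctionFieldFullC (ResidueField A) N)}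
    (hr : IsPlaceReductionModL A N r) (D : Divisor Kb (Fb N))
    (hD : ∀ σ : GQ, arithmeticGalois (modularFunctionFieldFull N) σ • D = D) :
    haveI := (riemannPkg_bar N).finite_L D
    ∃ z : Fin (finrank Kb (riemannRochSpace D)) → Fb N, (∀ i, z i ∈ riemannRochSpace D) ∧
      (∀ i, ∀ σ : GQ, arithmeticGalois (modularFunctionFieldFull N) σ • z i = z i) ∧
      (∀ i, z i ∈ (redSetupBar hℓN hA hr).O) ∧
      (LinearIndependent (ResidueField A) fun i => (redSetupBar hℓN hA hr).resF (z i)) ∧
      LinearIndependent Kb z ∧ Submodule.span Kb (Set.range z) = riemannRochSpace D := by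
  haveI := (riemannPkg_bar N).finite_L D
  exact exists_fixed_reducedBasis_bar' hℓN hA hr (riemannRochSpace D)
    fun σ f hf => smul_mem_riemannRochSpace _ (hD σ) hf

end Fermat.Agent.FF2.Rat
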