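import Fermat.Agent.FF2.Rat.PlaceStab
import Fermat.Agent.FF2.Disc.Division

/-!
# FF2 / RAT (R-7): rational disc coordinates on `X₀(N)`

The output of `exists_rational_lift_stab` / `exists_rational_section` packaged as
`Disc.DiscCoord (redSetupBar hℓN hA hr) (cusps)` (the structure of `FF2/Disc/Division.lean`):
centre `P₀` and coordinate `t = j - c` fixed by the stabiliser `placeStab N A Q` of the residue
point `Q = r P₀`.

* `exists_discCoord_rational` : one point;
* `exists_section_discCoord_rational` : a section `lift` of `r` together with rational disc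
  coordinates centred at `lift Q` for all good `Q`.
-/

set_option autoImplicit false
set_option linter.style.haveILetI false
set_option linter.unusedSectionVars false

noncomputable section
namespace Fermat.Agent.FF2.Rat

open AlgebraicCurve ModularCurve IsLocalRing Fermat.Agent.Red Fermat.Agent.X0 Fermat.Agent.Val
  Fermat.Agent.Val.GaloisModL Fermat.Agent.Good.CuspBound Fermat.Agent.FF2.Disc

set_option synthInstance.maxHeartbeats 400000
set_option maxHeartbeats 1000000

local notation "GQ" => (AlgebraicClosure ℚ ≃ₐ[ℚ] AlgebraicClosure ℚ)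

variable {N : ℕ} [NeZero N] {A : ValuationSubring (AlgebraicClosure ℚ)}
variable {ℓ : ℕ} [hℓ : Fact ℓ.Prime] (hℓN : ¬ ℓ ∣ N) (hA : A.LiesOverPrime ℓ)
  (h : ReductionInputsModL A N)

include hℓN hA in
/-- **Rational disc coordinate at an unramified point of the special fibre.** -/
theorem exists_discCoord_rational
    (Q : Place (ResidueField A) (modularFunctionFieldFullC (ResidueField A) N))
    (hQZ : Q ∉ placeReductionModL h '' placesOverInfty Kb (jBar N))
    (a : ResidueField A)
    (ha : Q.ord (jC N A - algebraMap (ResidueField A) _ a) = 1) :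
    ∃ (c : A) (C : DiscCoord (redSetupBar hℓN hA (isPlaceReductionModL_placeReductionModL h))
        (placesOverInfty Kb (jBar N))),
      placeReductionModL h C.P₀ = Q ∧
      C.t = jBar N - algebraMap Kb (Fb N) (c : Kb) ∧
      (c : Kb) ∈ fixedRing A (placeStab N A Q) ∧ residue A c = a ∧
      (redSetupBar hℓN hA (isPlaceReductionModL_placeReductionModL h)).resF C.t =
        jC N A - algebraMap (ResidueField A) _ a ∧
      ∀ σ ∈ placeStab N A Q,
        arithmeticGalois (modularFunctionFieldFull N) σ • C.P₀ = C.P₀ ∧
        arithmeticGalois (modularFunctionFieldFull N) σ • C.t = C.t := by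
  obtain ⟨c, P₀, hc, hca, hP₀, hfix, htfix, hchart, hres, hres0, hord, hother⟩ :=
    exists_rational_lift_stab hℓN hA h Q hQZ a ha
  refine ⟨c, ⟨P₀, jBar N - algebraMap Kb (Fb N) (c : Kb), ?_, hchart, hres0, hord, ?_, ?_⟩,
    hP₀, rfl, hc, hca, hres, fun σ hσ => ⟨hfix σ hσ, htfix σ hσ⟩⟩
  · show placeReductionModL h P₀ ∉ placeReductionModL h '' placesOverInfty Kb (jBar N)
    rw [hP₀]; exact hQZ
  · show (placeReductionModL h P₀).ord _ = 1
    rw [hP₀, hres]; exact ha
  · intro P' hP' hne
    exact hother P' (hP'.trans hP₀) hne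

include hℓN hA in
/-- **A section of the reduction of places with rational disc coordinates.** -/
theorem exists_section_discCoord_rational :
    ∃ lift : Place (ResidueField A) (modularFunctionFieldFullC (ResidueField A) N) →
        Place Kb (Fb N),
      (∀ Q, placeReductionModL h (lift Q) = Q) ∧
      ∀ Q, Q ∉ placeReductionModL h '' placesOverInfty Kb (jBar N) →
        ∀ a : ResidueField A, Q.ord (jC N A - algebraMap (ResidueField A) _ a) = 1 →
          ∃ (c : A) (C : DiscCoord
              (redSetupBar hℓN hA (isPlaceReductionModL_placeReductionModL h))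
              (placesOverInfty Kb (jBar N))),
            C.P₀ = lift Q ∧
            C.t = jBar N - algebraMap Kb (Fb N) (c : Kb) ∧
            (c : Kb) ∈ fixedRing A (placeStab N A Q) ∧ residue A c = a ∧
            (redSetupBar hℓN hA (isPlaceReductionModL_placeReductionModL h)).resF C.t =
              jC N A - algebraMap (ResidueField A) _ a ∧
            ∀ σ ∈ placeStab N A Q,
              arithmeticGalois (modularFunctionFieldFull N) σ • C.P₀ = C.P₀ ∧
              arithmeticGalois (modularFunctionFieldFull N) σ • C.t = C.t := by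
  obtain ⟨lift, hlift, hprop⟩ := exists_rational_section hℓN hA h
  refine ⟨lift, hlift, fun Q hQZ a ha => ?_⟩
  obtain ⟨hfix, c, hc, hca, htfix, hchart, hres, hres0, hord, hother⟩ := hprop Q hQZ a ha
  refine ⟨c, ⟨lift Q, jBar N - algebraMap Kb (Fb N) (c : Kb), ?_, hchart, hres0, hord, ?_, ?_⟩,
    rfl, rfl, hc, hca, hres, fun σ hσ => ⟨hfix σ hσ, htfix σ hσ⟩⟩
  · show placeReductionModL h (lift Q) ∉ placeReductionModL h '' placesOverInfty Kb (jBar N)
    rw [hlift Q]; exact hQZ
  · show (placeReductionModL h (lift Q)).ord _ = 1
    rw [hlift Q, hres]; exact ha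
  · intro P' hP' hne
    exact hother P' (hP'.trans (hlift Q)) hne

end Fermat.Agent.FF2.Rat
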