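import Mathlib

/-!
# FF2 / RAT-C (core, Mathlib only): rational reduced bases of Galois-stable coordinate subspaces

`L` a field, `A` a valuation subring of `L`, `Φ` a set of ring automorphisms
of `L`, `ι` a finite type.  A subspace `V ≤ ι → L` which is stable under the coordinatewise action
of every `φ ∈ Φ` has a basis `b` such that

* every coordinate `b j i` is fixed by every `φ ∈ Φ` ("rational"),
* every coordinate lies in `A` ("integral"),
* the residues `i ↦ π (b j i)` are `k`-linearly independent ("reduced"), for any ring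
  homomorphism `π : A →+* k` to a field.

No Galois theory: a nonzero vector of minimal support, normalised at one coordinate, is fixed
(`exists_fixed_of_ne_bot`); then induct on the dimension, cutting with a coordinate hyperplane at
a coordinate of maximal valuation (`exists_fixed_reduced_basis`).
-/

set_option autoImplicit false

open IsLocalRing Module

namespace Fermat.Agent.FF2.Rat

variable {L : Type*} [Field L] {ι : Type*} [Fintype ι]

/-- `V` is stable under the coordinatewise action of the automorphisms in `Φ`. -/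
def CoordStable (Φ : Set (L ≃+* L)) (V : Submodule L (ι → L)) : Prop :=
  ∀ φ ∈ Φ, ∀ v ∈ V, (fun i => φ (v i)) ∈ V

/-- A vector all of whose coordinates are fixed by `Φ`. -/
def CoordFixed (Φ : Set (L ≃+* L)) (v : ι → L) : Prop := ∀ φ ∈ Φ, ∀ i, φ (v i) = v i

theorem CoordFixed.smul {Φ : Set (L ≃+* L)} {v : ι → L} (hv : CoordFixed Φ v) {c : L}
    (hc : ∀ φ ∈ Φ, φ c = c) : CoordFixed Φ (c • v) := fun φ hφ i => by
  rw [Pi.smul_apply, smul_eq_mul, map_mul, hc φ hφ, hv φ hφ i]

/-- A nonzero coordinatewise stable subspace contains a nonzero coordinatewise fixed vector. -/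
theorem exists_fixed_of_ne_bot (Φ : Set (L ≃+* L)) (V : Submodule L (ι → L))
    (hV : CoordStable Φ V) (hne : V ≠ ⊥) : ∃ v ∈ V, v ≠ 0 ∧ CoordFixed Φ v := by
  classical
  obtain ⟨v₁, hv₁V, hv₁0⟩ := (Submodule.ne_bot_iff V).1 hne
  have hex : ∃ n, ∃ v ∈ V, v ≠ 0 ∧ (Finset.univ.filter fun i => v i ≠ 0).card = n :=
    ⟨_, v₁, hv₁V, hv₁0, rfl⟩
  obtain ⟨v, hvV, hv0, hcard⟩ := Nat.find_spec hex
  have hmin : ∀ w ∈ V, w ≠ 0 → Nat.find hex ≤ (Finset.univ.filter fun i => w i ≠ 0).card :=
    fun w hw hw0 => Nat.find_min' hex ⟨w, hw, hw0, rfl⟩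
  obtain ⟨i₀, hi₀⟩ : ∃ i, v i ≠ 0 := by
    by_contra h
    push Not at h
    exact hv0 (funext h)
  set v' : ι → L := (v i₀)⁻¹ • v with hv'
  have hv'V : v' ∈ V := V.smul_mem _ hvV
  have hv'i₀ : v' i₀ = 1 := by rw [hv', Pi.smul_apply, smul_eq_mul, inv_mul_cancel₀ hi₀]
  have hv'0 : v' ≠ 0 := fun h => by rw [h] at hv'i₀; simp at hv'i₀
  have hsupp : ∀ i, v' i ≠ 0 ↔ v i ≠ 0 := fun i => by
    rw [hv', Pi.smul_apply, smul_eq_mul]
    simp [hi₀]
  refine ⟨v', hv'V, hv'0, fun φ hφ i => ?_⟩
  set w : ι → L := (fun i => φ (v' i)) - v' with hw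
  have hwV : w ∈ V := V.sub_mem (hV φ hφ v' hv'V) hv'V
  have hw0 : w = 0 := by
    by_contra hw0
    have h1 := hmin w hwV hw0
    have h2 : (Finset.univ.filter fun i => w i ≠ 0) ⊂ Finset.univ.filter fun i => v i ≠ 0 := by
      rw [Finset.ssubset_iff_of_subset]
      · refine ⟨i₀, by simp [hi₀], ?_⟩
        simp [hw, hv'i₀]
      · intro i hi
        rw [Finset.mem_filter] at hi ⊢
        refine ⟨Finset.mem_univ _, ?_⟩
        rw [← hsupp]
        intro h0
        apply hi.2
        simp [hw, h0]
    have h3 := Finset.card_lt_card h2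
    omega
  have := congrFun hw0 i
  simpa [hw, sub_eq_zero] using this

variable (A : ValuationSubring L) {k : Type*} [Field k] (π : A →+* k)

/-- **Rational reduced basis of a coordinatewise stable subspace.** -/
theorem exists_fixed_reduced_basis (Φ : Set (L ≃+* L)) :
    ∀ (n : ℕ) (V : Submodule L (ι → L)), finrank L V = n → CoordStable Φ V →
      ∃ b : Fin n → ι → A, (∀ j, (fun i => (b j i : L)) ∈ V) ∧
        (∀ j, CoordFixed Φ fun i => (b j i : L)) ∧
        LinearIndependent k fun j => fun i => π (b j i) := by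
  classical
  intro n
  induction n with
  | zero =>
    intro V _ _
    exact ⟨Fin.elim0, fun j => j.elim0, fun j => j.elim0, linearIndependent_empty_type⟩
  | succ n ih =>
    intro V hn hV
    have hne : V ≠ ⊥ := by
      rintro rfl
      simp at hn
    obtain ⟨v, hvV, hv0, hvfix⟩ := exists_fixed_of_ne_bot Φ V hV hne
    -- a coordinate of maximal valuation
    obtain ⟨i₁, -, hmax⟩ := Finset.exists_max_image Finset.univ (fun i => A.valuation (v i))
      (by
        obtain ⟨i, -⟩ : ∃ i, v i ≠ 0 := by
          by_contra h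
          push Not at h
          exact hv0 (funext h)
        exact ⟨i, Finset.mem_univ _⟩)
    have hvi₁ : v i₁ ≠ 0 := by
      intro h0
      apply hv0
      funext i
      have := hmax i (Finset.mem_univ _)
      rw [h0, map_zero] at this
      exact (Valuation.zero_iff _).1 (le_antisymm this zero_le)
    set u : ι → L := (v i₁)⁻¹ • v with hu
    have huV : u ∈ V := V.smul_mem _ hvV
    have hui₁ : u i₁ = 1 := by rw [hu, Pi.smul_apply, smul_eq_mul, inv_mul_cancel₀ hvi₁]
    have hufix : CoordFixed Φ u :=
      hvfix.smul fun φ hφ => by rw [map_inv₀, hvfix φ hφ i₁]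
    have huA : ∀ i, u i ∈ A := fun i => by
      rw [← A.valuation_le_one_iff, hu, Pi.smul_apply, smul_eq_mul, map_mul, map_inv₀]
      have h1 := hmax i (Finset.mem_univ _)
      have h2 : A.valuation (v i₁) ≠ 0 := (Valuation.ne_zero_iff _).2 hvi₁
      rw [inv_mul_le_iff₀ (zero_lt_iff.2 h2), mul_one]
      exact h1
    -- the hyperplane section
    set V' : Submodule L (ι → L) := V ⊓ LinearMap.ker (LinearMap.proj i₁ : (ι → L) →ₗ[L] L)
      with hV'
    have hV'st : CoordStable Φ V' := fun φ hφ w hw => by
      refine ⟨hV φ hφ w hw.1, ?_⟩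
      have : w i₁ = 0 := hw.2
      show φ (w i₁) = 0
      rw [this, map_zero]
    have hrank : finrank L V' = n := by
      set f : V →ₗ[L] L := (LinearMap.proj i₁ : (ι → L) →ₗ[L] L).domRestrict V with hf
      have hsurj : Function.Surjective f := fun c =>
        ⟨⟨c • u, V.smul_mem _ huV⟩, by
          show (c • u) i₁ = c
          rw [Pi.smul_apply, hui₁, smul_eq_mul, mul_one]⟩
      have h1 := LinearMap.finrank_range_add_finrank_ker f
      rw [LinearMap.range_eq_top.2 hsurj, finrank_top, finrank_self, hn] at h1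
      have h2 : finrank L (LinearMap.ker f) = finrank L V' := by
        have h3 : LinearMap.ker f = Submodule.comap V.subtype V' := by
          rw [hf, LinearMap.ker_domRestrict, hV', Submodule.comap_inf, Submodule.comap_subtype_self,
            top_inf_eq]
        rw [h3]
        exact LinearEquiv.finrank_eq (Submodule.comapSubtypeEquivOfLe (inf_le_left : V' ≤ V))
      omega
    obtain ⟨b', hb'V, hb'fix, hb'li⟩ := ih V' hrank hV'st
    refine ⟨Fin.cons (fun i => ⟨u i, huA i⟩) b', ?_, ?_, ?_⟩
    · intro j
      refine Fin.cases ?_ (fun j => ?_) j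
      · simpa using huV
      · simpa using (hb'V j).1
    · intro j
      refine Fin.cases ?_ (fun j => ?_) j
      · simpa using hufix
      · simpa using hb'fix j
    · have hcons : (fun j : Fin (n + 1) => fun i => π
          ((Fin.cons (fun i => (⟨u i, huA i⟩ : A)) b' : Fin (n + 1) → ι → A) j i)) =
          Fin.cons (fun i => π ⟨u i, huA i⟩) (fun j => fun i => π (b' j i)) := by
        funext j
        refine Fin.cases ?_ (fun j => ?_) j <;> simp
      rw [hcons, linearIndependent_finCons]
      refine ⟨hb'li, fun hmem => ?_⟩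
      -- the `i₁`-coordinate vanishes on the span of the residues of `b'`
      have hzero : ∀ w ∈ Submodule.span k
          (Set.range fun j => fun i => π (b' j i)), w i₁ = 0 := by
        intro w hw
        induction hw using Submodule.span_induction with
        | mem w hw =>
          obtain ⟨j, rfl⟩ := hw
          have h0 : ((b' j i₁ : A) : L) = 0 := (hb'V j).2
          have : b' j i₁ = 0 := Subtype.ext h0
          show π (b' j i₁) = 0
          rw [this, map_zero]
        | zero => rfl
        | add x y _ _ hx hy => rw [Pi.add_apply, hx, hy, add_zero]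
        | smul c x _ hx => rw [Pi.smul_apply, hx, smul_zero]
      have h1 := hzero _ hmem
      have h2 : (⟨u i₁, huA i₁⟩ : A) = 1 := Subtype.ext hui₁
      rw [h2, map_one] at h1
      exact one_ne_zero h1

end Fermat.Agent.FF2.Rat
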