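import Fermat.Agent.FF2.Rat.FixedBasis
import Fermat.Agent.Val.OrthoExhaust
import Fermat.Agent.Red.LatticeReduction
import Fermat.Prelude.Def_AlgebraicCurve_BaseChangeGalois

/-!
# FF2 / RAT-C (abstract bridge): rational reduced bases from a rational orthonormal monomial family

`S : Red.RedSetup A π` a valued function field `F / K`.  Suppose `x : F`, `m : Fin n → F` is an
orthonormal monomial family in the sense of `Val.exhaustion_of_ortho` (every `x ^ a * m i` family is
orthonormal for `(S.O, S.res)`, every `f ∈ F` is `(∑ Pᵢ(x) mᵢ) / Q(x)`), and `Γ` is a set of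
semilinear automorphisms of `F / K` fixing `x` and the `m i`, such that every nonzero `Q ∈ K[X]`
divides some `Q'` with `Γ`-fixed coefficients for which `Q'(x)` is a unit of `S.O`.

Then every finite dimensional `Γ`-stable `K`-subspace `V` of `F` has a **reduced basis of
`Γ`-fixed functions** (`exists_fixed_reducedBasis_of_ortho`).
-/

set_option autoImplicit false

namespace Fermat.Agent.FF2.Rat

open AlgebraicCurve Polynomial Module Fermat.Agent.Red Fermat.Agent.Val

variable {K F k Ft : Type*} [Field K] [Field F] [Algebra K F] [Field k] [Field Ft]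
  [Algebra k Ft] {A : ValuationSubring K} {π : A →+* k}

/-- Semilinear automorphisms act on polynomial values through the coefficients. -/
theorem smul_aeval (g : SemilinearAut K F) (x : F) (Q : K[X]) :
    g • aeval x Q = aeval (g • x) (Q.map ((SemilinearAut.baseAut g : K ≃+* K) : K →+* K)) := by
  induction Q using Polynomial.induction_on' with
  | add p q hp hq => rw [map_add, smul_add, hp, hq, Polynomial.map_add, map_add]
  | monomial n a =>
    rw [Polynomial.map_monomial, aeval_monomial, aeval_monomial, smul_mul', smul_pow',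
      SemilinearAut.smul_algebraMap]
    rfl

/-- Semilinearity on scalar multiples. -/
theorem smul_smul_semilinear (g : SemilinearAut K F) (c : K) (y : F) :
    g • (c • y) = (SemilinearAut.baseAut g c) • (g • y) := by
  rw [Algebra.smul_def, Algebra.smul_def, smul_mul', SemilinearAut.smul_algebraMap]

section Bridge

variable (S : RedSetup (F := F) (Ft := Ft) A π)

/-- Common denominator with a prescribed property, and bounded degree: the representation part
of `Val.exhaustion_of_ortho`, with the denominator upgraded along `hrat`. -/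
theorem exists_common_rep (x : F) {n : ℕ} (m : Fin n → F) (p : K[X] → Prop)
    (hrat : ∀ Q : K[X], Q ≠ 0 → ∃ Q' : K[X], Q' ≠ 0 ∧ Q ∣ Q' ∧ p Q')
    (hrep : ∀ f : F, ∃ Q : K[X], Q ≠ 0 ∧ ∃ P : Fin n → K[X],
      f * aeval x Q = ∑ i, aeval x (P i) * m i) (T : Finset F) :
    ∃ Q' : K[X], Q' ≠ 0 ∧ p Q' ∧ ∃ d : ℕ, ∀ s ∈ T, ∃ lam : Fin n × Fin (d + 1) → K,
      s * aeval x Q' = ∑ t, lam t • (x ^ (t.2 : ℕ) * m t.1) := by
  classical
  choose Qf hQf Pf hPf using hrep
  set Q : K[X] := ∏ s ∈ T, Qf s with hQ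
  have hQ0 : Q ≠ 0 := Finset.prod_ne_zero_iff.2 fun s _ => hQf s
  obtain ⟨Q', hQ'0, ⟨R, hR⟩, hpQ'⟩ := hrat Q hQ0
  set P' : F → Fin n → K[X] := fun s i => Pf s i * (∏ t ∈ T.erase s, Qf t) * R with hP'
  have hrep' : ∀ s ∈ T, s * aeval x Q' = ∑ i, aeval x (P' s i) * m i := by
    intro s hs
    rw [hR, hQ, ← Finset.mul_prod_erase T Qf hs, map_mul, map_mul, ← mul_assoc, ← mul_assoc,
      hPf s, Finset.sum_mul, Finset.sum_mul]
    refine Finset.sum_congr rfl fun i _ => ?_
    rw [hP', map_mul, map_mul]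
    ring
  set d : ℕ := T.sup fun s => Finset.univ.sup fun i => (P' s i).natDegree with hd
  have hdeg : ∀ s ∈ T, ∀ i, (P' s i).natDegree ≤ d := fun s hs i =>
    (Finset.le_sup (f := fun i => (P' s i).natDegree) (Finset.mem_univ i)).trans
      (Finset.le_sup (f := fun s => Finset.univ.sup fun i => (P' s i).natDegree) hs)
  refine ⟨Q', hQ'0, hpQ', d, fun s hs => ⟨fun t => (P' s t.1).coeff (t.2 : ℕ), ?_⟩⟩
  rw [hrep' s hs, Fintype.sum_prod_type]
  refine Finset.sum_congr rfl fun i _ => ?_
  rw [aeval_eq_sum_range' (Nat.lt_succ_of_le (hdeg s hs i)), Finset.sum_mul,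
    Finset.sum_range]
  refine Finset.sum_congr rfl fun a _ => ?_
  rw [smul_mul_assoc]

/-- **Rational reduced bases from a rational orthonormal monomial family.** -/
theorem exists_fixed_reducedBasis_of_ortho (hπ : Function.Surjective π)
    (Γ : Set (SemilinearAut K F)) (x : F) {n : ℕ} (m : Fin n → F)
    (hxfix : ∀ g ∈ Γ, g • x = x) (hmfix : ∀ g ∈ Γ, ∀ i, g • m i = m i)
    (ha : ∀ (d : ℕ) (lam : Fin n × Fin (d + 1) → K),
      (∑ s, lam s • (x ^ (s.2 : ℕ) * m s.1)) ∈ S.O ↔ ∀ s, lam s ∈ A)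
    (hb : ∀ (d : ℕ) (lam : Fin n × Fin (d + 1) → K)
      (h : (∑ s, lam s • (x ^ (s.2 : ℕ) * m s.1)) ∈ S.O),
      S.res ⟨∑ s, lam s • (x ^ (s.2 : ℕ) * m s.1), h⟩ = 0 ↔ ∀ s, A.valuation (lam s) < 1)
    (hrep : ∀ f : F, ∃ Q : K[X], Q ≠ 0 ∧ ∃ P : Fin n → K[X],
      f * aeval x Q = ∑ i, aeval x (P i) * m i)
    (hrat : ∀ Q : K[X], Q ≠ 0 → ∃ Q' : K[X], Q' ≠ 0 ∧ Q ∣ Q' ∧
      ((∀ g ∈ Γ, Q'.map ((SemilinearAut.baseAut g : K ≃+* K) : K →+* K) = Q') ∧
        aeval x Q' ≠ 0 ∧ aeval x Q' ∈ S.O ∧ (aeval x Q')⁻¹ ∈ S.O))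
    (V : Submodule K F) [FiniteDimensional K V] (hV : ∀ g ∈ Γ, ∀ f ∈ V, g • f ∈ V) :
    ∃ z : Fin (finrank K V) → F, (∀ i, z i ∈ V) ∧ (∀ i, ∀ g ∈ Γ, g • z i = z i) ∧
      (∀ i, z i ∈ S.O) ∧ LinearIndependent k fun i => S.resF (z i) := by
  classical
  set bV := Module.finBasis K V with hbV
  set r := finrank K V with hr
  obtain ⟨Q', hQ'0, ⟨hQfix, hu0, huO, huO'⟩, d, hlam⟩ := exists_common_rep x m _ hrat hrep
    (Finset.univ.image fun j => ((bV j : V) : F))
  set u : F := aeval x Q' with hu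
  choose lam hlam using fun j : Fin r =>
    hlam ((bV j : V) : F) (Finset.mem_image.2 ⟨j, Finset.mem_univ _, rfl⟩)
  set e : Fin n × Fin (d + 1) → F := fun t => x ^ (t.2 : ℕ) * m t.1 with he
  have heli : LinearIndependent K e :=
    linearIndependent_of_orthonormal A S.O S.res e fun l h h0 => (hb d l h).1 h0
  -- the coordinate map
  set T : V →ₗ[K] (Fin n × Fin (d + 1) → K) :=
    ∑ j, (bV.coord j).smulRight (lam j) with hT
  have hTapp : ∀ (f : V) t, T f t = ∑ j, bV.repr f j * lam j t := by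
    intro f t
    rw [hT, LinearMap.sum_apply, Finset.sum_apply]
    refine Finset.sum_congr rfl fun j _ => ?_
    rw [LinearMap.smulRight_apply, Pi.smul_apply, smul_eq_mul, Module.Basis.coord_apply]
  have hTspec : ∀ f : V, (f : F) * u = ∑ t, T f t • e t := by
    intro f
    conv_lhs => rw [← bV.sum_repr f]
    rw [Submodule.coe_sum, Finset.sum_mul]
    simp only [Submodule.coe_smul, smul_mul_assoc, hlam]
    rw [Finset.sum_congr rfl fun j _ => Finset.smul_sum, Finset.sum_comm]
    refine Finset.sum_congr rfl fun t _ => ?_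
    rw [hTapp, Finset.sum_smul]
    refine Finset.sum_congr rfl fun j _ => ?_
    rw [smul_smul]
  have hTinj : Function.Injective T := by
    rw [← LinearMap.ker_eq_bot, LinearMap.ker_eq_bot']
    intro f hf
    have h1 := hTspec f
    rw [hf] at h1
    simp only [Pi.zero_apply, zero_smul, Finset.sum_const_zero] at h1
    rcases mul_eq_zero.1 h1 with h2 | h2
    · exact Subtype.ext h2
    · exact absurd h2 hu0
  -- equivariance
  have hgu : ∀ g ∈ Γ, g • u = u := fun g hg => by
    rw [hu, smul_aeval, hxfix g hg, hQfix g hg]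
  have hge : ∀ g ∈ Γ, ∀ t, g • e t = e t := fun g hg t => by
    rw [he]
    simp only
    rw [smul_mul', smul_pow', hxfix g hg, hmfix g hg]
  have hTequiv : ∀ g (hg : g ∈ Γ) (f : V) t,
      T ⟨g • (f : F), hV g hg f f.2⟩ t = SemilinearAut.baseAut g (T f t) := by
    intro g hg f
    have h1 : (g • (f : F)) * u = ∑ t, SemilinearAut.baseAut g (T f t) • e t := by
      have := congrArg (fun y => g • y) (hTspec f)
      simp only [smul_mul', hgu g hg, Finset.smul_sum, smul_smul_semilinear, hge g hg] at this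
      exact this
    have h2 := hTspec ⟨g • (f : F), hV g hg f f.2⟩
    rw [h1] at h2
    have h3 : ∑ t, (SemilinearAut.baseAut g (T f t) - T ⟨g • (f : F), hV g hg f f.2⟩ t) • e t
        = 0 := by
      simp only [sub_smul, Finset.sum_sub_distrib]
      rw [h2, sub_self]
    intro t
    have := Fintype.linearIndependent_iff.1 heli _ h3 t
    exact (sub_eq_zero.1 this).symm
  -- the coordinate subspace
  set Vc : Submodule K (Fin n × Fin (d + 1) → K) := LinearMap.range T with hVc
  have hVcrank : finrank K Vc = r := LinearMap.finrank_range_of_inj hTinj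
  set Φ : Set (K ≃+* K) := {φ | ∃ g ∈ Γ, φ = SemilinearAut.baseAut g} with hΦ
  have hVcst : CoordStable Φ Vc := by
    rintro φ ⟨g, hg, rfl⟩ v ⟨f, rfl⟩
    exact ⟨⟨g • (f : F), hV g hg f f.2⟩, funext fun t => hTequiv g hg f t⟩
  obtain ⟨b, hbV', hbfix, hbli⟩ := exists_fixed_reduced_basis A π Φ r Vc hVcrank hVcst
  choose z hz using hbV'
  have hzspec : ∀ j, ((z j : V) : F) * u = ∑ t, ((b j t : A) : K) • e t := fun j => by
    rw [hTspec, hz j]
  have hzO : ∀ j, ((z j : V) : F) ∈ S.O := fun j => by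
    have h1 : ((z j : V) : F) = (∑ t, ((b j t : A) : K) • e t) * u⁻¹ := by
      rw [← hzspec, mul_assoc, mul_inv_cancel₀ hu0, mul_one]
    rw [h1]
    exact S.O.mul_mem _ _ ((ha d _).2 fun t => (b j t).2) huO'
  refine ⟨fun j => ((z j : V) : F), fun j => (z j).2, fun j g hg => ?_, ?_, ?_⟩
  · have h1 : T ⟨g • ((z j : V) : F), hV g hg _ (z j).2⟩ = T (z j) := by
      funext t
      rw [hTequiv g hg (z j) t, hz j]
      exact hbfix j _ ⟨g, hg, rfl⟩ t
    have := hTinj h1
    exact congrArg Subtype.val this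
  · exact hzO
  · -- independence of the residues
    rw [Fintype.linearIndependent_iff]
    intro c hc
    choose μ hμ using fun j => hπ (c j)
    obtain ⟨hwO, hwres⟩ := S.resF_sum_smul (fun j => ((z j : V) : F)) hzO
      (fun j => ((μ j : A) : K)) fun j => (μ j).2
    have hw0 : S.resF (∑ j, ((μ j : A) : K) • ((z j : V) : F)) = 0 := by
      rw [hwres, ← hc]
      refine Finset.sum_congr rfl fun j _ => ?_
      rw [← hμ j]
    -- multiply by `u`
    have hy : (∑ j, ((μ j : A) : K) • ((z j : V) : F)) * u =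
        ∑ t, (∑ j, ((μ j : A) : K) * ((b j t : A) : K)) • e t := by
      rw [Finset.sum_mul]
      simp only [smul_mul_assoc, hzspec, Finset.smul_sum, smul_smul]
      rw [Finset.sum_comm]
      refine Finset.sum_congr rfl fun t _ => ?_
      rw [Finset.sum_smul]
    have hyA : ∀ t, (∑ j, ((μ j : A) : K) * ((b j t : A) : K)) ∈ A := fun t =>
      A.sum_mem fun j _ => A.mul_mem _ _ (μ j).2 (b j t).2
    have hyO : (∑ t, (∑ j, ((μ j : A) : K) * ((b j t : A) : K)) • e t) ∈ S.O := (ha d _).2 hyA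
    have hyres : S.res ⟨_, hyO⟩ = 0 := by
      rw [← S.resF_of_mem hyO, ← hy, S.resF_mul hwO huO, hw0, zero_mul]
    have hval := (hb d _ hyO).1 hyres
    -- hence the residue vectors satisfy the relation
    have hrel : ∑ j, c j • (fun t => π (b j t)) = 0 := by
      funext t
      rw [Finset.sum_apply, Pi.zero_apply]
      have h1 : π ⟨_, hyA t⟩ = 0 := by
        rw [S.pi_eq_zero_iff, ValuationSubring.mem_nonunits_iff]
        exact hval t
      have h4 : (⟨_, hyA t⟩ : A) = ∑ j, μ j * b j t := by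
        apply Subtype.ext
        simp
      rw [h4, map_sum] at h1
      rw [← h1]
      refine Finset.sum_congr rfl fun j _ => ?_
      rw [Pi.smul_apply, smul_eq_mul, map_mul, hμ j]
    exact Fintype.linearIndependent_iff.1 hbli c hrel

end Bridge

end Fermat.Agent.FF2.Rat
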