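import Mathlib
import Fermat.Agent.Red.LocalParam
import Fermat.Agent.Red.NormalForm
import Fermat.Prelude.Def_AlgebraicCurve_BaseChangeGalois

/-!
# FF2 / RAT-A: the unique simple zero in a residue disc, and its rationality

Abstract layer of the rationality node of the S19 programme.  `S : Red.RedSetup A π`.

* `exists_simpleZero` : **(A2)** for `u ∈ B_Z = S.chart Z` and a place `Q ∉ r(Z)` of the residue
  function field with `ord_Q (res u) = 1`, there is a place `P` in the residue disc of `Q` with
  `ord_P u = 1`, and `u` has order `0` at every other place of the disc.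
* `smul_eq_of_simpleZero` : **(A3)** if a semilinear automorphism `g` fixes `u`, its companion `gt`
  on the residue side fixes `Q`, and `r (g • P) = gt • r P`, then `g • P = P`
  ("the Hensel lift of an unramified rational point is rational", no Hensel lemma needed).
* `isValueAt_smul_iff`, `evalAt_smul` : **(A1)** values at places are equivariant.
-/

set_option autoImplicit false

namespace Fermat.Agent.FF2.Rat

open AlgebraicCurve Fermat.Agent.Red Fermat.Agent.Red.NormalForm

variable {K F k Ft : Type*} [Field K] [Field F] [Algebra K F] [Field k] [Field Ft]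
  [Algebra k Ft] {A : ValuationSubring K} {π : A →+* k}

section SimpleZero

variable (S : RedSetup (F := F) (Ft := Ft) A π)

/-- **(A2) Unique simple zero in a residue disc.** -/
theorem exists_simpleZero (hF : RiemannPkg K F) {Z : Set (Place K F)} {u : F}
    (hu : u ∈ S.chart Z) {Q : Place k Ft} (hQ : Q ∉ S.r '' Z) (hord : Q.ord (S.resF u) = 1) :
    ∃ P : Place K F, S.r P = Q ∧ P.ord u = 1 ∧
      ∀ P' : Place K F, S.r P' = Q → P' ≠ P → P'.ord u = 0 := by
  classical
  have hres : S.resF u ≠ 0 := by
    intro h0
    rw [h0, Place.ord_zero] at hord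
    exact zero_ne_one hord
  have hu0 : u ≠ 0 := S.ne_zero_of_resF_ne_zero hres
  obtain ⟨D, hD, -⟩ := hF.principal.exists_divisor u hu0
  have hcons := S.mapDomain_div_apply hres D hD Q
  obtain ⟨P, hP, hDP⟩ := exists_of_mapDomain_apply_ne_zero S.r D Q (by rw [hcons, hord]; exact one_ne_zero)
  have hnn : ∀ P' : Place K F, S.r P' = Q → 0 ≤ P'.ord u := fun P' hP' =>
    S.ord_nonneg_of_mem_chart hu (by rw [hP']; exact hQ)
  have hle : P.ord u ≤ 1 := by
    have := S.ord_le_ord_resF hF hu hres (P := P) (by rw [hP]; exact hQ)
    rwa [hP, hord] at this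
  have hpos : 0 < P.ord u := lt_of_le_of_ne (hnn P hP) (by rw [← hD P]; exact Ne.symm hDP)
  have h1 : P.ord u = 1 := le_antisymm hle hpos
  refine ⟨P, hP, h1, fun P' hP' hne => ?_⟩
  have hsum := S.sum_ord_le_ord_resF hF hu hres hQ {P, P'} (by
    intro P'' hP''
    rcases Finset.mem_insert.1 hP'' with rfl | hP''
    · exact hP
    · rw [Finset.mem_singleton.1 hP'']; exact hP')
  rw [Finset.sum_pair (Ne.symm hne), h1, hord] at hsum
  have := hnn P' hP'
  omega

/-- Uniqueness in (A2): a place of the disc at which `u` has positive order is the simple zero. -/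
theorem eq_of_simpleZero {u : F} {Q : Place k Ft} {P : Place K F}
    (hP0 : ∀ P' : Place K F, S.r P' = Q → P' ≠ P → P'.ord u = 0)
    {P' : Place K F} (hP' : S.r P' = Q) (hpos : P'.ord u ≠ 0) : P' = P := by
  by_contra hne
  exact hpos (hP0 P' hP' hne)

/-- **(A3) Rationality of the simple zero.** -/
theorem smul_eq_of_simpleZero (g : SemilinearAut K F) (gt : SemilinearAut k Ft)
    (hr : ∀ P : Place K F, S.r (g • P) = gt • S.r P) {u : F} (hgu : g • u = u)
    {Q : Place k Ft} (hgQ : gt • Q = Q) {P : Place K F} (hP : S.r P = Q) (h1 : P.ord u ≠ 0)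
    (hP0 : ∀ P' : Place K F, S.r P' = Q → P' ≠ P → P'.ord u = 0) : g • P = P := by
  refine eq_of_simpleZero S hP0 (by rw [hr, hP, hgQ]) ?_
  have := SemilinearAut.ord_smul g P u
  rw [hgu] at this
  rwa [this]

end SimpleZero

section Values

/-- **(A1)** Values at places are equivariant under semilinear automorphisms. -/
theorem isValueAt_smul_iff (g : SemilinearAut K F) (P : Place K F) (h : F) (c : K) :
    IsValueAt (g • P) (g • h) (SemilinearAut.baseAut g c) ↔ IsValueAt P h c := by
  rw [isValueAt_iff, isValueAt_iff]
  have hsub : g • h - algebraMap K F (SemilinearAut.baseAut g c) = g • (h - algebraMap K F c) := by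
    rw [smul_sub, SemilinearAut.smul_algebraMap]
  have heq : g • h = algebraMap K F (SemilinearAut.baseAut g c) ↔ h = algebraMap K F c := by
    rw [← SemilinearAut.smul_algebraMap]
    exact (MulAction.injective g).eq_iff
  rw [hsub, SemilinearAut.ord_smul, heq]

theorem evalAt_smul (g : SemilinearAut K F) (P : Place K F) (hdeg : P.deg = 1) {h : F}
    (hh : h ∈ P.toValuationSubring) :
    evalAt (g • P) (g • h) = SemilinearAut.baseAut g (evalAt P h) :=
  evalAt_eq_of_isValueAt ((isValueAt_smul_iff g P h _).2 (isValueAt_evalAt P hdeg hh))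

/-- The value of a `g`-fixed function at a `g`-fixed place is fixed by the base automorphism. -/
theorem baseAut_evalAt_eq (g : SemilinearAut K F) {P : Place K F} (hgP : g • P = P)
    (hdeg : P.deg = 1) {h : F} (hgh : g • h = h) (hh : h ∈ P.toValuationSubring) :
    SemilinearAut.baseAut g (evalAt P h) = evalAt P h := by
  have := evalAt_smul g P hdeg hh
  rw [hgP, hgh] at this
  exact this.symm

end Values

end Fermat.Agent.FF2.Rat
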