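import Mathlib

/-!
# FF2 / RAT-B1: Teichmüller lifts of roots of unity in a valuation subring

`A` a valuation subring of an algebraically closed field `L`, `k` its residue field, `m` an integer
invertible in `k`.  The `m`-th roots of unity of `L` lie in `A` and reduce *bijectively* onto the
`m`-th roots of unity of `k`:

* `mem_of_pow_eq_one` : roots of unity are integral;
* `eq_of_residue_eq` : injectivity (separability of `X ^ m - 1` over `k`);
* `exists_rootOfUnity_lift` : surjectivity.
-/

set_option autoImplicit false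

open Polynomial IsLocalRing

namespace Fermat.Agent.FF2.Rat

variable {L : Type*} [Field L] (A : ValuationSubring L)

/-- Roots of unity lie in every valuation subring. -/
theorem mem_of_pow_eq_one {ζ : L} {m : ℕ} (hm : m ≠ 0) (h : ζ ^ m = 1) : ζ ∈ A := by
  rw [← A.valuation_le_one_iff]
  by_contra hlt
  rw [not_le] at hlt
  have h1 : 1 < A.valuation ζ ^ m := one_lt_pow₀ hlt hm
  rw [← map_pow, h, map_one] at h1
  exact lt_irrefl _ h1

/-- **Injectivity of the reduction of roots of unity of order prime to the residue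
characteristic.** -/
theorem eq_of_residue_eq {m : ℕ} (hm : (m : ResidueField A) ≠ 0) {ζ ζ' : A} (h : ζ ^ m = 1)
    (h' : ζ' ^ m = 1) (hr : residue A ζ = residue A ζ') : ζ = ζ' := by
  by_contra hne
  set f : A[X] := X ^ m - 1 with hf
  have hroot : f.IsRoot ζ := by simp [hf, h]
  have hroot' : f.IsRoot ζ' := by simp [hf, h']
  have h1 : (X - C ζ) * (f /ₘ (X - C ζ)) = f := mul_divByMonic_eq_iff_isRoot.2 hroot
  set f1 := f /ₘ (X - C ζ) with hf1
  have hroot1 : f1.IsRoot ζ' := by
    have := hroot'
    rw [← h1, IsRoot.def, eval_mul, eval_sub, eval_X, eval_C] at this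
    rcases mul_eq_zero.1 this with h0 | h0
    · exact absurd (sub_eq_zero.1 h0).symm hne
    · exact h0
  have h2 : (X - C ζ') * (f1 /ₘ (X - C ζ')) = f1 := mul_divByMonic_eq_iff_isRoot.2 hroot1
  set f2 := f1 /ₘ (X - C ζ') with hf2
  have h3 : f = (X - C ζ) * ((X - C ζ') * f2) := by rw [h2, h1]
  have h4 := congrArg (Polynomial.map (residue A)) h3
  simp only [hf, Polynomial.map_sub, Polynomial.map_pow, Polynomial.map_X, Polynomial.map_one,
    Polynomial.map_mul, Polynomial.map_C, ← hr] at h4
  have hsep : (X ^ m - C (1 : ResidueField A)).Separable :=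
    separable_X_pow_sub_C (1 : ResidueField A) hm one_ne_zero
  rw [map_one] at hsep
  have hsq := hsep.squarefree
  have hdvd : (X - C (residue A ζ)) * (X - C (residue A ζ)) ∣ X ^ m - 1 :=
    ⟨f2.map (residue A), by rw [h4]; ring⟩
  have hu := hsq _ hdvd
  exact Polynomial.not_isUnit_X_sub_C _ hu

/-- An integer nonzero in the residue field is nonzero in `L`. -/
theorem natCast_ne_zero_of_residue {m : ℕ} (hm : (m : ResidueField A) ≠ 0) : (m : L) ≠ 0 := by
  intro h0
  apply hm
  have : (m : A) = 0 := Subtype.ext (by simpa using h0)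
  rw [← map_natCast (residue A), this, map_zero]

/-- **Surjectivity of the reduction of roots of unity (Teichmüller lift).** -/
theorem exists_rootOfUnity_lift [IsAlgClosed L] {m : ℕ} (hm : (m : ResidueField A) ≠ 0)
    (x : ResidueField A) (hx : x ^ m = 1) : ∃ ζ : A, ζ ^ m = 1 ∧ residue A ζ = x := by
  have hm0 : m ≠ 0 := by rintro rfl; simp at hm
  have : NeZero (m : L) := ⟨natCast_ne_zero_of_residue A hm⟩
  have : NeZero m := ⟨hm0⟩
  have : HasEnoughRootsOfUnity L m := IsSepClosed.hasEnoughRootsOfUnity L m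
  obtain ⟨ζ₀, hζ₀⟩ := HasEnoughRootsOfUnity.exists_primitiveRoot L m
  have hmem : ζ₀ ∈ A := mem_of_pow_eq_one A hm0 hζ₀.pow_eq_one
  set z : A := ⟨ζ₀, hmem⟩ with hz
  have hzpow : z ^ m = 1 := Subtype.ext (by simpa using hζ₀.pow_eq_one)
  -- the reduction of `ζ₀` is a primitive `m`-th root of unity
  have hprim : IsPrimitiveRoot (residue A z) m := by
    refine IsPrimitiveRoot.mk_of_lt _ (Nat.pos_of_ne_zero hm0) ?_ ?_
    · rw [← map_pow, hzpow, map_one]
    · intro d hd hdm hpow
      have h1 : (z ^ d) ^ m = 1 := by rw [← pow_mul, mul_comm, pow_mul, hzpow, one_pow]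
      have h2 : (1 : A) ^ m = 1 := one_pow m
      have h3 : residue A (z ^ d) = residue A 1 := by rw [map_pow, hpow, map_one]
      have h4 := eq_of_residue_eq A hm h1 h2 h3
      have h5 : ζ₀ ^ d = 1 := by
        have := congrArg Subtype.val h4
        simpa using this
      exact absurd (hζ₀.dvd_of_pow_eq_one d h5) (Nat.not_dvd_of_pos_of_lt hd hdm)
  obtain ⟨i, -, hi⟩ := hprim.eq_pow_of_pow_eq_one hx
  refine ⟨z ^ i, ?_, ?_⟩
  · rw [← pow_mul, mul_comm, pow_mul, hzpow, one_pow]
  · rw [map_pow, hi]

end Fermat.Agent.FF2.Rat
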